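import Fermat.Agent.S14.Analytic.Defs

/-!
# S14 analytic core: SKELETON (statements only; every `sorry` is a task, target file in the comment)
-/

set_option autoImplicit false

namespace Fermat.Agent.S14.Analytic

open NumberField Ideal Filter Topology Module
open NumberField.mixedEmbedding NumberField.Units NumberField.Units.dirichletUnitTheorem
open scoped nonZeroDivisors

variable (K : Type*) [Field K] [NumberField K]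

/-! ## A1 : file Analytic/Basic.lean -/

theorem term_pos (s : ℝ) (I : (Ideal (𝓞 K))⁰) : 0 < term K s I := by sorry

theorem term_one (s : ℝ) : term K s 1 = 1 := by sorry

theorem term_mul (s : ℝ) (I J : (Ideal (𝓞 K))⁰) :
    term K s (I * J) = term K s I * term K s J := by sorry

/-- for a proper ideal and `s ≥ 1`: `N(I)^(-s) ≤ 1/2`. -/
theorem term_le_half {s : ℝ} (hs : 1 ≤ s) (I : (Ideal (𝓞 K))⁰) (hI : (I : Ideal (𝓞 K)) ≠ ⊤) :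
    term K s I ≤ 1 / 2 := by sorry

theorem summable_term {s : ℝ} (hs : 1 < s) : Summable (term K s) := by sorry

theorem tendsto_zetaSum :
    Tendsto (fun s : ℝ ↦ (s - 1) * zetaSum K s) (𝓝[>] 1) (𝓝 (dedekindZeta_residue K)) := by sorry

theorem exists_sub_one_mul_zetaSum_le :
    ∃ B : ℝ, ∀ s : ℝ, 1 < s → s ≤ 2 → (s - 1) * zetaSum K s ≤ B := by sorry

/-! ## A2 : file Analytic/EulerFactor.lean -/

open Classical in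
/-- finite Euler factor removal -/
theorem prod_one_sub_mul_tsum (f : (Ideal (𝓞 K))⁰ →* ℂ) (hf : Summable fun I ↦ ‖f I‖)
    (T : Finset (Ideal (𝓞 K))⁰) (hT : ∀ q ∈ T, (q : Ideal (𝓞 K)).IsPrime) :
    (∏ q ∈ T, (1 - f q)) * ∑' I, f I =
      ∑' I : (Ideal (𝓞 K))⁰, if ∀ q ∈ T, ¬ (q ∣ I) then f I else 0 := by sorry

/-! ## A3 : file Analytic/NonPrimeNorm.lean -/

theorem prod_nonprime_norm_bounded :
    ∃ B : ℝ, 1 ≤ B ∧ ∀ (T : Finset (Ideal (𝓞 K))⁰), (∀ q ∈ T, (q : Ideal (𝓞 K)).IsPrime ∧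
      ¬ (absNorm (q : Ideal (𝓞 K))).Prime) → ∀ s : ℝ, 1 ≤ s →
      ∏ q ∈ T, (1 - term K s q)⁻¹ ≤ B := by sorry

/-! ## C3 -/

/-- W1 : file Analytic/Partition.lean -/
theorem exists_lipschitz_partition {Y : Type*} [NormedAddCommGroup Y] [NormedSpace ℝ Y]
    [FiniteDimensional ℝ Y] (L : Submodule ℤ Y) [DiscreteTopology L] [IsZLattice ℝ L] :
    ∃ (w : Y → ℝ) (R Lip : ℝ), (∀ y, 0 ≤ w y) ∧ (∀ y, w y ≤ 1) ∧ (∀ y, w y ≠ 0 → ‖y‖ ≤ R) ∧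
      (∀ y y', |w y - w y'| ≤ Lip * ‖y - y'‖) ∧ (∀ y, HasSum (fun ℓ : L ↦ w (y + ℓ)) 1) := by
  sorry

open scoped Classical in
/-- W2 : file Analytic/FLipschitz.lean -/
theorem F_lipschitz (w : logSpace K → ℝ) (R Lip : ℝ) (hw0 : ∀ y, 0 ≤ w y) (hw1 : ∀ y, w y ≤ 1)
    (hsupp : ∀ y, w y ≠ 0 → ‖y‖ ≤ R) (hLip : ∀ y y', |w y - w y'| ≤ Lip * ‖y - y'‖) :
    ∃ A ρ : ℝ, 0 ≤ A ∧ 0 < ρ ∧ ∀ s : ℝ, 1 ≤ s → s ≤ 2 → ∀ x h : mixedSpace K, 1 ≤ ‖x‖ →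
      ‖h‖ ≤ ρ * ‖x‖ →
      |F w s (x + h) - F w s x| ≤ A * ‖h‖ * ‖x‖ ^ (-((finrank ℚ K : ℝ) + 1)) := by sorry

open scoped Classical in
/-- W3 : file Analytic/Unfold.lean -/
theorem classZeta_eq_tsum_F (w : logSpace K → ℝ) (hw0 : ∀ y, 0 ≤ w y)
    (hw : ∀ y, HasSum (fun ℓ : unitLattice K ↦ w (y + ℓ)) 1)
    (C : ClassGroup (𝓞 K)) (J : (Ideal (𝓞 K))⁰) (hJ : ClassGroup.mk0 J = C⁻¹) {s : ℝ}
    (hs : 1 < s) :
    Summable (fun β : (J : Ideal (𝓞 K)) ↦ F w s (mixedEmbedding K ((β : 𝓞 K) : K))) ∧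
    (torsionOrder K : ℝ) * classZeta K C s = (absNorm (J : Ideal (𝓞 K)) : ℝ) ^ s *
      ∑' β : (J : Ideal (𝓞 K)), F w s (mixedEmbedding K ((β : 𝓞 K) : K)) := by sorry

/-- W4 : file Analytic/Coset.lean -/
theorem coset_comparison {E G : Type*} [NormedAddCommGroup E] [AddCommGroup G] (ι : G →+ E)
    (d : ℝ) (hd : 0 < d) (hsum : Summable (fun g : G ↦ ‖ι g‖ ^ (-d)))
    (hfin : ∀ r : ℝ, {g : G | ‖ι g‖ ≤ r}.Finite)
    (G' : AddSubgroup G) [G'.FiniteIndex] (A ρ : ℝ) (hA : 0 ≤ A) (hρ : 0 < ρ) :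
    ∃ B : ℝ, ∀ F : E → ℝ, (∀ g : G, |F (ι g)| ≤ 1) →
      (∀ x h : E, 1 ≤ ‖x‖ → ‖h‖ ≤ ρ * ‖x‖ → |F (x + h) - F x| ≤ A * ‖h‖ * ‖x‖ ^ (-d)) →
      Summable (fun g : G ↦ F (ι g)) →
      |∑' g : G, F (ι g) - G'.index * ∑' g : G', F (ι (g : G))| ≤ B := by sorry

/-- W5 : file Analytic/ClassZetaBound.lean -/
theorem classZeta_sub_bounded (C C' : ClassGroup (𝓞 K)) :
    ∃ B : ℝ, ∀ s : ℝ, 1 < s → s ≤ 2 → |classZeta K C s - classZeta K C' s| ≤ B := by sorry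

/-! ## A5a : file Analytic/LBound.lean -/

theorem lSum_bounded (X : ClassGroup (𝓞 K) →* ℂ) (hX : X ≠ 1) :
    ∃ B : ℝ, ∀ s : ℝ, 1 < s → s ≤ 2 → ‖lSum K X s‖ ≤ B := by sorry

/-! ## A4 : file Analytic/Key.lean -/

theorem key_inequality (N : Type*) [Field N] [NumberField N] [Algebra K N]
    (X : ClassGroup (𝓞 K) →* ℂ) (m : ℕ) (hm : 0 < m)
    (hsplit : ∀ q : (Ideal (𝓞 K))⁰, (q : Ideal (𝓞 K)).IsPrime →
      (absNorm (q : Ideal (𝓞 K))).Prime → X (ClassGroup.mk0 q) ≠ 1 →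
      ∃ S : Finset (Ideal (𝓞 N)), m ≤ S.card ∧ ∀ Q ∈ S, Q.IsPrime ∧
        Q.comap (algebraMap (𝓞 K) (𝓞 N)) = (q : Ideal (𝓞 K)) ∧
        absNorm Q = absNorm (q : Ideal (𝓞 K)))
    (B₂ : ℝ) (hB₂ : ∀ (T : Finset (Ideal (𝓞 K))⁰), (∀ q ∈ T, (q : Ideal (𝓞 K)).IsPrime ∧
      ¬ (absNorm (q : Ideal (𝓞 K))).Prime) → ∀ s : ℝ, 1 ≤ s →
      ∏ q ∈ T, (1 - term K s q)⁻¹ ≤ B₂)
    {s : ℝ} (hs : 1 < s) :
    zetaSum K s ≤ ‖lSum K X s‖ * B₂ ^ 2 * (zetaSum N s) ^ ((2 : ℝ) / m) := by sorry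

/-! ## A5 : file Analytic/Core.lean -/

/-- THE ANALYTIC CORE -/
theorem analytic_core (N : Type*) [Field N] [NumberField N] [Algebra K N]
    (H : Subgroup (ClassGroup (𝓞 K))) (m : ℕ) (hm : 2 < m)
    (hsplit : ∀ q : (Ideal (𝓞 K))⁰, (q : Ideal (𝓞 K)).IsPrime →
      (absNorm (q : Ideal (𝓞 K))).Prime → ClassGroup.mk0 q ∉ H →
      ∃ S : Finset (Ideal (𝓞 N)), m ≤ S.card ∧ ∀ Q ∈ S, Q.IsPrime ∧
        Q.comap (algebraMap (𝓞 K) (𝓞 N)) = (q : Ideal (𝓞 K)) ∧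
        absNorm Q = absNorm (q : Ideal (𝓞 K))) :
    H = ⊤ := by sorry

end Fermat.Agent.S14.Analytic
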